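import Mathlib.Algebra.QuadraticAlgebra.Basic
import Mathlib.NumberTheory.Real.GoldenRatio
import Mathlib.Algebra.Order.Round
import Mathlib.Data.ZMod.Basic
import Mathlib.NumberTheory.SumFourSquares
import Mathlib.Tactic

/-!
# The ring `ℤ[φ]`

Its two embeddings, total positivity, division with remainder, and the division of a sum of four
squares by `2`, `2 + φ` and `3`.
-/

set_option autoImplicit false
set_option synthInstance.maxSize 512

noncomputable section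

namespace FA.Gotzky

open Real

/-- `ℤ[φ]`. -/
abbrev O : Type := QuadraticAlgebra ℤ 1 1

/-- The two roots of `x ^ 2 = x + 1`. -/
def root : Fin 2 → ℝ := ![goldenRatio, goldenConj]

theorem root_sq (j : Fin 2) : root j ^ 2 = root j + 1 := by
  fin_cases j
  · exact goldenRatio_sq
  · exact goldenConj_sq

theorem root_irrational (j : Fin 2) : Irrational (root j) := by
  fin_cases j
  · exact goldenRatio_irrational
  · exact goldenConj_irrational

/-- The real embeddings. -/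
def emb (j : Fin 2) : O →+* ℝ :=
  (QuadraticAlgebra.lift ⟨root j, by
    rw [← pow_two, root_sq]
    simp [add_comm]⟩ : O →ₐ[ℤ] ℝ).toRingHom

theorem emb_apply (j : Fin 2) (z : O) : emb j z = z.re + z.im * root j := by
  simp [emb]

theorem emb_injective (j : Fin 2) : Function.Injective (emb j) := by
  refine (injective_iff_map_eq_zero _).2 fun z hz => ?_
  rw [emb_apply] at hz
  rcases eq_or_ne z.im 0 with h | h
  · rw [h, Int.cast_zero, zero_mul, add_zero] at hz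
    exact QuadraticAlgebra.ext (by exact_mod_cast hz) h
  · exact absurd hz (((root_irrational j).intCast_mul h).intCast_add z.re).ne_zero

theorem mul_eq_norm (z : O) : emb 0 z * emb 1 z = (QuadraticAlgebra.norm z : ℤ) := by
  simp only [emb_apply, root, Matrix.cons_val_zero, Matrix.cons_val_one, QuadraticAlgebra.norm_def]
  push_cast
  linear_combination (z.re : ℝ) * z.im * goldenRatio_add_goldenConj +
    (z.im : ℝ) ^ 2 * goldenRatio_mul_goldenConj

theorem add_eq_trace (z : O) : emb 0 z + emb 1 z = ((2 * z.re + z.im : ℤ) : ℝ) := by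
  simp only [emb_apply, root, Matrix.cons_val_zero, Matrix.cons_val_one]
  push_cast
  linear_combination (z.im : ℝ) * goldenRatio_add_goldenConj

instance isDomain : IsDomain O := (emb_injective 0).isDomain

/-- Total positivity. -/
def TotPos (z : O) : Prop := ∀ j, 0 < emb j z

theorem totPos_iff {z : O} :
    TotPos z ↔ 0 < QuadraticAlgebra.norm z ∧ 0 < 2 * z.re + z.im := by
  have e := mul_eq_norm z
  have t := add_eq_trace z
  refine ⟨fun h => ⟨?_, ?_⟩, fun ⟨hn, ht⟩ => ?_⟩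
  · exact_mod_cast e ▸ mul_pos (h 0) (h 1)
  · exact_mod_cast t ▸ add_pos (h 0) (h 1)
  · have hn' : 0 < emb 0 z * emb 1 z := by rw [e]; exact_mod_cast hn
    have ht' : 0 < emb 0 z + emb 1 z := by rw [t]; exact_mod_cast ht
    rcases mul_pos_iff.1 hn' with ⟨h0, h1⟩ | ⟨h0, h1⟩
    · intro j
      fin_cases j
      exacts [h0, h1]
    · linarith

theorem norm_eq_zero {z : O} : QuadraticAlgebra.norm z = 0 ↔ z = 0 := by
  refine ⟨fun h => ?_, fun h => h ▸ QuadraticAlgebra.norm_zero⟩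
  have e := mul_eq_norm z
  rw [h, Int.cast_zero] at e
  rcases mul_eq_zero.1 e with h' | h' <;> exact (map_eq_zero_iff _ (emb_injective _)).1 h'

/-- Division with remainder. -/
theorem exists_rem (x : O) {m : O} (hm : m ≠ 0) :
    ∃ q : O, |QuadraticAlgebra.norm (x - q * m)| < |QuadraticAlgebra.norm m| := by
  set n := QuadraticAlgebra.norm m with hn
  have hn0 : n ≠ 0 := fun h => hm (norm_eq_zero.1 h)
  have key : ∀ c : ℤ, ∃ q : ℤ, 2 * |c - q * n| ≤ |n| := fun c => by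
    refine ⟨round ((c : ℚ) / n), ?_⟩
    have h := abs_sub_round ((c : ℚ) / n)
    have hq : (0 : ℚ) < |(n : ℚ)| := by positivity
    have : (2 : ℚ) * |(c : ℚ) - round ((c : ℚ) / n) * n| ≤ |(n : ℚ)| := by
      rw [show (c : ℚ) - round ((c : ℚ) / n) * n = ((c : ℚ) / n - round ((c : ℚ) / n)) * n by
        field_simp, abs_mul]
      nlinarith
    exact_mod_cast this
  obtain ⟨a, ha⟩ := key (x * star m).re
  obtain ⟨b, hb⟩ := key (x * star m).im
  refine ⟨⟨a, b⟩, ?_⟩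
  have e : x * star m - ⟨a, b⟩ * (algebraMap ℤ O n) = (x - ⟨a, b⟩ * m) * star m := by
    rw [hn, QuadraticAlgebra.algebraMap_norm_eq_mul_star]
    ring
  have h := congrArg QuadraticAlgebra.norm e
  rw [map_mul, QuadraticAlgebra.norm_star, ← hn] at h
  have hr : (x * star m - ⟨a, b⟩ * algebraMap ℤ O n).re = (x * star m).re - a * n := by simp
  have hi : (x * star m - ⟨a, b⟩ * algebraMap ℤ O n).im = (x * star m).im - b * n := by simp
  rw [QuadraticAlgebra.norm_def, hr, hi] at h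
  set e₁ := (x * star m).re - a * n
  set e₂ := (x * star m).im - b * n
  refine lt_of_mul_lt_mul_right ?_ (abs_nonneg n)
  rw [← abs_mul, ← h, abs_mul_abs_self]
  have h1 : (e₁ * e₁) * 4 ≤ n * n := by
    rw [← abs_mul_abs_self e₁, ← abs_mul_abs_self n]
    nlinarith [abs_nonneg e₁]
  have h2 : (e₂ * e₂) * 4 ≤ n * n := by
    rw [← abs_mul_abs_self e₂, ← abs_mul_abs_self n]
    nlinarith [abs_nonneg e₂]
  have := mul_self_pos.2 hn0
  rw [abs_lt]
  constructor <;> nlinarith [mul_self_nonneg (e₁ + e₂), mul_self_nonneg (e₁ - e₂)]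

/-! ### Sums of four squares -/

/-- A sum of four squares. -/
def IsSum4 (m : O) : Prop := ∃ a b c d : O, a ^ 2 + b ^ 2 + c ^ 2 + d ^ 2 = m

theorem IsSum4.mul {m n : O} (hm : IsSum4 m) (hn : IsSum4 n) : IsSum4 (m * n) := by
  obtain ⟨a, b, c, d, rfl⟩ := hm
  obtain ⟨x, y, z, w, rfl⟩ := hn
  exact ⟨_, _, _, _, euler_four_squares a b c d x y z w⟩

theorem IsSum4.star {m : O} (hm : IsSum4 m) : IsSum4 (star m) := by
  obtain ⟨a, b, c, d, rfl⟩ := hm
  exact ⟨Star.star a, Star.star b, Star.star c, Star.star d, by simp [star_pow]⟩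

/-- The residue map. -/
def res (n : ℕ) : O →+* QuadraticAlgebra (ZMod n) 1 1 where
  toFun z := ⟨z.re, z.im⟩
  map_one' := by ext <;> simp [QuadraticAlgebra.re_one, QuadraticAlgebra.im_one]
  map_mul' _ _ := by ext <;> simp
  map_zero' := by ext <;> simp
  map_add' _ _ := by ext <;> simp

theorem exists_eq_mul {n : ℕ} {z : O} (h : res n z = 0) : ∃ w : O, z = (n : O) * w := by
  have h1 : ((z.re : ℤ) : ZMod n) = 0 := congrArg QuadraticAlgebra.re h
  have h2 : ((z.im : ℤ) : ZMod n) = 0 := congrArg QuadraticAlgebra.im h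
  obtain ⟨a, ha⟩ := (ZMod.intCast_zmod_eq_zero_iff_dvd _ _).1 h1
  obtain ⟨b, hb⟩ := (ZMod.intCast_zmod_eq_zero_iff_dvd _ _).1 h2
  exact ⟨⟨a, b⟩, by ext <;> simp [ha, hb]⟩

instance fintypeRes (n : ℕ) [NeZero n] : Fintype (QuadraticAlgebra (ZMod n) 1 1) :=
  Fintype.ofEquiv _ (QuadraticAlgebra.equivProd (1 : ZMod n) 1).symm

/-- If `t` divides one of the pairings of a sum of four squares, it can be cancelled. -/
theorem of_pairs {t m : O} (ht : t ≠ 0) {a b c d : O} (hs : a ^ 2 + b ^ 2 + c ^ 2 + d ^ 2 = t * m)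
    (P : O → O → Prop) (hP : ∀ a b, P a b → ∃ u v : O, a ^ 2 + b ^ 2 = t * (u ^ 2 + v ^ 2))
    (h : (P a b ∧ P c d) ∨ (P a c ∧ P b d) ∨ (P a d ∧ P b c)) : IsSum4 m := by
  rcases h with ⟨h1, h2⟩ | ⟨h1, h2⟩ | ⟨h1, h2⟩ <;>
    obtain ⟨u, v, e1⟩ := hP _ _ h1 <;> obtain ⟨u', v', e2⟩ := hP _ _ h2 <;>
    exact ⟨u, v, u', v', mul_left_cancel₀ ht (by linear_combination hs - e1 - e2)⟩

theorem two_cases : ∀ a b c d : QuadraticAlgebra (ZMod 2) 1 1,
    a ^ 2 + b ^ 2 + c ^ 2 + d ^ 2 = 0 →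
      (a = b ∧ c = d) ∨ (a = c ∧ b = d) ∨ (a = d ∧ b = c) ∨
        (a ≠ b ∧ a ≠ c ∧ a ≠ d ∧ b ≠ c ∧ b ≠ d ∧ c ≠ d) := by
  decide +kernel

theorem even_or_of_two_mul {m : O} (h : IsSum4 (2 * m)) : IsSum4 m ∨ (2 : O) ∣ m := by
  obtain ⟨a, b, c, d, hs⟩ := h
  have h0 : res 2 a ^ 2 + res 2 b ^ 2 + res 2 c ^ 2 + res 2 d ^ 2 = 0 := by
    rw [← map_pow, ← map_pow, ← map_pow, ← map_pow, ← map_add, ← map_add, ← map_add, hs, map_mul]
    rw [show res 2 2 = 0 by decide +kernel, zero_mul]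
  have hP : ∀ x y : O, res 2 x = res 2 y → ∃ u v : O, x ^ 2 + y ^ 2 = 2 * (u ^ 2 + v ^ 2) := by
    intro x y hxy
    obtain ⟨w, hw⟩ := exists_eq_mul (n := 2) (z := x - y) (by rw [map_sub, hxy, sub_self])
    push_cast at hw
    exact ⟨y + w, w, by rw [show x = y + 2 * w by linear_combination hw]; ring⟩
  rcases two_cases _ _ _ _ h0 with h | h | h | h
  · exact Or.inl (of_pairs two_ne_zero hs _ hP (Or.inl h))
  · exact Or.inl (of_pairs two_ne_zero hs _ hP (Or.inr (Or.inl h)))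
  · exact Or.inl (of_pairs two_ne_zero hs _ hP (Or.inr (Or.inr h)))
  · right
    let L : QuadraticAlgebra (ZMod 2) 1 1 → O := fun r => ⟨r.re.val, r.im.val⟩
    have hL2 : ∀ r, res 2 (L r) = r := by decide +kernel
    have hL : ∀ x : O, res 4 (x ^ 2) = res 4 (L (res 2 x) ^ 2) := fun x => by
      obtain ⟨w, hw⟩ := exists_eq_mul (n := 2) (z := x - L (res 2 x))
        (by rw [map_sub, hL2, sub_self])
      push_cast at hw
      rw [show x ^ 2 = L (res 2 x) ^ 2 + 4 * (L (res 2 x) * w + w ^ 2) by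
        linear_combination (x + L (res 2 x) + 2 * w) * hw, map_add, map_mul,
        show res 4 4 = 0 by decide +kernel, zero_mul, add_zero]
    have hsum : ∀ i j k l : QuadraticAlgebra (ZMod 2) 1 1,
        i ≠ j ∧ i ≠ k ∧ i ≠ l ∧ j ≠ k ∧ j ≠ l ∧ k ≠ l →
          res 4 (L i ^ 2) + res 4 (L j ^ 2) + res 4 (L k ^ 2) + res 4 (L l ^ 2) = 0 := by
      decide +kernel
    have h4 : res 4 (2 * m) = 0 := by
      rw [← hs, map_add, map_add, map_add, hL a, hL b, hL c, hL d]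
      exact hsum _ _ _ _ h
    obtain ⟨w, hw⟩ := exists_eq_mul h4
    push_cast at hw
    exact ⟨w, mul_left_cancel₀ two_ne_zero (by linear_combination hw)⟩

/-- The residue map at `2 + φ`. -/
def res5 : O →+* ZMod 5 :=
  (QuadraticAlgebra.lift ⟨3, by decide⟩ : O →ₐ[ℤ] ZMod 5).toRingHom

theorem res5_apply (z : O) : res5 z = z.re + z.im * 3 := by
  simp [res5]

theorem five_mul_cases : ∀ a b c d : ZMod 5, a ^ 2 + b ^ 2 + c ^ 2 + d ^ 2 = 0 →
    (a ^ 2 + b ^ 2 = 0 ∧ c ^ 2 + d ^ 2 = 0) ∨ (a ^ 2 + c ^ 2 = 0 ∧ b ^ 2 + d ^ 2 = 0) ∨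
      (a ^ 2 + d ^ 2 = 0 ∧ b ^ 2 + c ^ 2 = 0) := by decide +kernel

theorem of_tau_mul {m : O} (h : IsSum4 (⟨2, 1⟩ * m)) : IsSum4 m := by
  obtain ⟨a, b, c, d, hs⟩ := h
  set t : O := ⟨2, 1⟩ with ht
  set f : O := ⟨0, 1⟩ with hf
  have htf : t = 1 + f ^ 2 := by rw [ht, hf]; decide +kernel
  have ht0 : t ≠ 0 := fun e => by simpa [ht] using congrArg QuadraticAlgebra.re e
  have hdvd : ∀ z, res5 z = 0 → ∃ w, z = t * w := fun z hz => by
    rw [res5_apply] at hz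
    have hk : ((z.re + z.im * 3 : ℤ) : ZMod 5) = 0 := by push_cast; exact hz
    obtain ⟨k, hk⟩ := (ZMod.intCast_zmod_eq_zero_iff_dvd _ _).1 hk
    refine ⟨⟨3, -1⟩ * (k : O) - (z.im : O) * ⟨2, -1⟩, ?_⟩
    push_cast at hk
    rw [ht]
    ext <;> simp <;> linarith
  have h0 : res5 a ^ 2 + res5 b ^ 2 + res5 c ^ 2 + res5 d ^ 2 = 0 := by
    rw [← map_pow, ← map_pow, ← map_pow, ← map_pow, ← map_add, ← map_add, ← map_add, hs, map_mul]
    rw [show res5 t = 0 by rw [ht, res5_apply]; decide +kernel, zero_mul]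
  have hsplit : ∀ x y : ZMod 5, x ^ 2 + y ^ 2 = 0 →
      (x + 3 * y = 0 ∧ 3 * x - y = 0) ∨ (x - 3 * y = 0 ∧ 3 * x + y = 0) := by decide +kernel
  have h3 : res5 f = 3 := by rw [hf, res5_apply]; decide +kernel
  refine of_pairs ht0 hs (fun x y => res5 x ^ 2 + res5 y ^ 2 = 0) (fun x y hxy => ?_)
    (five_mul_cases _ _ _ _ h0)
  rcases hsplit _ _ hxy with ⟨h1, h2⟩ | ⟨h1, h2⟩
  · obtain ⟨u, hu⟩ := hdvd (x + f * y) (by rw [map_add, map_mul, h3, h1])
    obtain ⟨v, hv⟩ := hdvd (f * x - y) (by rw [map_sub, map_mul, h3, h2])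
    refine ⟨u, v, mul_left_cancel₀ ht0 ?_⟩
    linear_combination (x ^ 2 + y ^ 2) * htf + (x + f * y + t * u) * hu + (f * x - y + t * v) * hv
  · obtain ⟨u, hu⟩ := hdvd (x - f * y) (by rw [map_sub, map_mul, h3, h1])
    obtain ⟨v, hv⟩ := hdvd (f * x + y) (by rw [map_add, map_mul, h3, h2])
    refine ⟨u, v, mul_left_cancel₀ ht0 ?_⟩
    linear_combination (x ^ 2 + y ^ 2) * htf + (x - f * y + t * u) * hu + (f * x + y + t * v) * hv

theorem of_tauStar_mul {m : O} (h : IsSum4 (⟨3, -1⟩ * m)) : IsSum4 m := by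
  have := of_tau_mul (m := star m) (by
    have h' := h.star
    rwa [star_mul', QuadraticAlgebra.star_mk] at h')
  simpa using this.star

/-- The nine squares modulo `3`. -/
theorem three_squares : ∀ a : QuadraticAlgebra (ZMod 3) 1 1,
    a ^ 2 ∈ ([0, 1, 2, ⟨1, 1⟩, ⟨2, 2⟩] : List (QuadraticAlgebra (ZMod 3) 1 1)) := by
  decide +kernel

theorem three_cases : ∀ a ∈ ([0, 1, 2, ⟨1, 1⟩, ⟨2, 2⟩] : List (QuadraticAlgebra (ZMod 3) 1 1)),
    ∀ b ∈ ([0, 1, 2, ⟨1, 1⟩, ⟨2, 2⟩] : List (QuadraticAlgebra (ZMod 3) 1 1)),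
    ∀ c ∈ ([0, 1, 2, ⟨1, 1⟩, ⟨2, 2⟩] : List (QuadraticAlgebra (ZMod 3) 1 1)),
    ∀ d ∈ ([0, 1, 2, ⟨1, 1⟩, ⟨2, 2⟩] : List (QuadraticAlgebra (ZMod 3) 1 1)),
    a + b + c + d = 0 →
      ((a + b = 0 ∧ c + d = 0) ∨ (a + c = 0 ∧ b + d = 0) ∨ (a + d = 0 ∧ b + c = 0)) ∨
        (d = 0 ∧ a = b ∧ a = c) ∨ (c = 0 ∧ a = b ∧ a = d) ∨ (b = 0 ∧ a = c ∧ a = d) ∨
          (a = 0 ∧ b = c ∧ b = d) := by decide +kernel

theorem of_three_mul {m : O} (h : IsSum4 (3 * m)) : IsSum4 m := by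
  obtain ⟨a, b, c, d, hs⟩ := h
  set r := res 3
  have h30' : (3 : O) ≠ 0 := by decide +kernel
  have h0 : r a ^ 2 + r b ^ 2 + r c ^ 2 + r d ^ 2 = 0 := by
    rw [← map_pow, ← map_pow, ← map_pow, ← map_pow, ← map_add, ← map_add, ← map_add, hs, map_mul]
    rw [show r 3 = 0 by decide +kernel, zero_mul]
  have hdvd : ∀ z, r z = 0 → ∃ w, z = 3 * w := fun z hz => by
    simpa using exists_eq_mul (n := 3) hz
  have hsplit : ∀ x y : QuadraticAlgebra (ZMod 3) 1 1, x ^ 2 + y ^ 2 = 0 →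
      (⟨0, 1⟩ * x + ⟨-1, 1⟩ * y = 0 ∧ ⟨-1, 1⟩ * x - ⟨0, 1⟩ * y = 0) ∨
      (⟨0, 1⟩ * x - ⟨-1, 1⟩ * y = 0 ∧ ⟨-1, 1⟩ * x + ⟨0, 1⟩ * y = 0) := by decide +kernel
  have hP : ∀ x y : O, r x ^ 2 + r y ^ 2 = 0 → ∃ u v, x ^ 2 + y ^ 2 = 3 * (u ^ 2 + v ^ 2) := by
    intro x y hxy
    set f : O := ⟨0, 1⟩
    set g : O := ⟨-1, 1⟩
    have htf : f ^ 2 + g ^ 2 = 3 := by decide +kernel
    have hf : r f = ⟨0, 1⟩ := by decide +kernel
    have hg : r g = ⟨-1, 1⟩ := by decide +kernel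
    rcases hsplit _ _ hxy with ⟨h1, h2⟩ | ⟨h1, h2⟩
    · obtain ⟨u, hu⟩ := hdvd (f * x + g * y) (by rw [map_add, map_mul, map_mul, hf, hg, h1])
      obtain ⟨v, hv⟩ := hdvd (g * x - f * y) (by rw [map_sub, map_mul, map_mul, hf, hg, h2])
      refine ⟨u, v, mul_left_cancel₀ h30' ?_⟩
      linear_combination -(x ^ 2 + y ^ 2) * htf + (f * x + g * y + 3 * u) * hu +
        (g * x - f * y + 3 * v) * hv
    · obtain ⟨u, hu⟩ := hdvd (f * x - g * y) (by rw [map_sub, map_mul, map_mul, hf, hg, h1])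
      obtain ⟨v, hv⟩ := hdvd (g * x + f * y) (by rw [map_add, map_mul, map_mul, hf, hg, h2])
      refine ⟨u, v, mul_left_cancel₀ h30' ?_⟩
      linear_combination -(x ^ 2 + y ^ 2) * htf + (f * x - g * y + 3 * u) * hu +
        (g * x + f * y + 3 * v) * hv
  have hroot : ∀ x y : QuadraticAlgebra (ZMod 3) 1 1, x ^ 2 = y ^ 2 → x = y ∨ x = -y := by
    decide +kernel
  have h30 : ∀ x : QuadraticAlgebra (ZMod 3) 1 1, x ^ 2 = 0 → x = 0 := by decide +kernel
  have h3 : ∀ x y z w : O, x ^ 2 + y ^ 2 + z ^ 2 + w ^ 2 = 3 * m →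
      r w ^ 2 = 0 → r x ^ 2 = r y ^ 2 → r x ^ 2 = r z ^ 2 → IsSum4 m := by
    intro x y z w hw0 hw hxy hxz
    obtain ⟨y', hy2, hy⟩ : ∃ y', y' ^ 2 = y ^ 2 ∧ r y' = -r x := by
      rcases hroot _ _ hxy with e | e
      · exact ⟨-y, neg_sq y, by rw [map_neg, e]⟩
      · exact ⟨y, rfl, by rw [e, neg_neg]⟩
    obtain ⟨z', hz2, hz⟩ : ∃ z', z' ^ 2 = z ^ 2 ∧ r z' = -r x := by
      rcases hroot _ _ hxz with e | e
      · exact ⟨-z, neg_sq z, by rw [map_neg, e]⟩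
      · exact ⟨z, rfl, by rw [e, neg_neg]⟩
    have hw' := h30 _ hw
    have h3x : r x + r x + r x = 0 := by
      generalize r x = t
      revert t
      decide +kernel
    obtain ⟨c1, e1⟩ := hdvd (x - y' - z') (by
      rw [map_sub, map_sub, hy, hz, sub_neg_eq_add, sub_neg_eq_add, h3x])
    obtain ⟨c2, e2⟩ := hdvd (x + y' + w) (by
      rw [map_add, map_add, hy, hw', add_neg_cancel, add_zero])
    obtain ⟨c3, e3⟩ := hdvd (x + z' - w) (by
      rw [map_sub, map_add, hz, hw', add_neg_cancel, sub_zero])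
    obtain ⟨c4, e4⟩ := hdvd (z' - y' + w) (by
      rw [map_add, map_sub, hy, hz, hw', sub_self, add_zero])
    refine ⟨c1, c2, c3, c4, mul_left_cancel₀ (mul_ne_zero h30' h30') ?_⟩
    linear_combination 3 * hw0 + 3 * hy2 + 3 * hz2 - (x - y' - z' + 3 * c1) * e1 -
      (x + y' + w + 3 * c2) * e2 - (x + z' - w + 3 * c3) * e3 - (z' - y' + w + 3 * c4) * e4
  rcases three_cases _ (three_squares (r a)) _ (three_squares (r b)) _ (three_squares (r c)) _
    (three_squares (r d)) h0 with h | h | h | h | h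
  · exact of_pairs h30' hs _ hP h
  · exact h3 a b c d hs h.1 h.2.1 h.2.2
  · exact h3 a b d c (by linear_combination hs) h.1 h.2.1 h.2.2
  · exact h3 a c d b (by linear_combination hs) h.1 h.2.1 h.2.2
  · exact h3 b c d a (by linear_combination hs) h.1 h.2.1 h.2.2

end FA.Gotzky
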