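import Fermat.Agent.Gotzky.Basic
import Mathlib.MeasureTheory.Group.GeometryOfNumbers
import Mathlib.MeasureTheory.Measure.Lebesgue.EqHaar
import Mathlib.MeasureTheory.Measure.Lebesgue.VolumeOfBalls
import Mathlib.Algebra.Module.ZLattice.Covolume
import Mathlib.LinearAlgebra.Matrix.Kronecker
import Mathlib.Analysis.Real.Pi.Bounds

/-!
# The lattice step

If `m` is totally positive and divides `A² + B² + 1`, some `t m` is a sum of four squares with `t`
totally positive of trace at most `6`, as a lattice of covolume `25` in `ℝ⁸` has a point in the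
ball of radius `√7`.
-/

set_option autoImplicit false

noncomputable section

namespace FA.Gotzky

open MeasureTheory Matrix Module
open scoped Kronecker

theorem exists_point_in_ball {ι : Type*} [Fintype ι] [DecidableEq ι] [Nonempty ι]
    (M : Matrix ι ι ℝ) (hM : M.det ≠ 0) {R : ℝ} (hR : 0 < R)
    (h : (2 : ℝ) ^ Fintype.card ι * |M.det| < R ^ Fintype.card ι *
      (Real.sqrt Real.pi ^ Fintype.card ι / Real.Gamma (Fintype.card ι / 2 + 1))) :
    ∃ z : ι → ℤ, z ≠ 0 ∧ ∑ i, (M *ᵥ fun k => (z k : ℝ)) i ^ 2 < R ^ 2 := by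
  obtain ⟨f, hf⟩ : ∃ f, f = Matrix.toLin' M := ⟨_, rfl⟩
  have hdet : LinearMap.det f = M.det := hf ▸ LinearMap.det_toLin' M
  obtain ⟨S, hS⟩ : ∃ S : Set (ι → ℝ),
      S = WithLp.toLp 2 ⁻¹' Metric.ball (0 : EuclideanSpace ℝ ι) R := ⟨_, rfl⟩
  obtain ⟨b, hb⟩ : ∃ b, b = Pi.basisFun ℝ ι := ⟨_, rfl⟩
  have hfund : volume (ZSpan.fundamentalDomain b) = 1 := by
    rw [ZSpan.volume_fundamentalDomain,
      show Matrix.of (⇑b) = (1 : Matrix ι ι ℝ) from Matrix.ext fun i j => by
        simp [hb, Matrix.one_apply, Pi.single_apply, eq_comm],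
      Matrix.det_one, abs_one, ENNReal.ofReal_one]
  have hconv : Convex ℝ S := hS ▸
    (convex_ball (0 : EuclideanSpace ℝ ι) R).linear_preimage
      (WithLp.linearEquiv 2 ℝ (ι → ℝ)).symm.toLinearMap
  have : Countable (Submodule.span ℤ (Set.range b)).toAddSubgroup :=
    inferInstanceAs (Countable (Submodule.span ℤ (Set.range b)))
  obtain ⟨⟨x, hx⟩, hx0, hxS⟩ :=
    exists_ne_zero_mem_lattice_of_measure_mul_two_pow_lt_measure (μ := volume) (s := f ⁻¹' S)
      (ZSpan.isAddFundamentalDomain' b volume)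
      (fun x hx => by
        show f (-x) ∈ S
        rw [map_neg, hS, Set.mem_preimage, WithLp.toLp_neg, mem_ball_zero_iff, norm_neg,
          ← mem_ball_zero_iff, ← Set.mem_preimage, ← hS]
        exact hx)
      (hconv.linear_preimage f)
      (by
        rw [hfund, one_mul, Module.finrank_fintype_fun_eq_card, Measure.addHaar_preimage_linearMap
          _ (hdet ▸ hM), hdet, hS, (PiLp.volume_preserving_toLp ι).measure_preimage
            measurableSet_ball.nullMeasurableSet, EuclideanSpace.volume_ball,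
          ← ENNReal.ofReal_pow hR.le, ← ENNReal.ofReal_mul (by positivity),
          ← ENNReal.ofReal_mul (by positivity), ← ENNReal.ofReal_ofNat,
          ← ENNReal.ofReal_pow zero_le_two, ENNReal.ofReal_lt_ofReal_iff_of_nonneg (by positivity),
          abs_inv, inv_mul_eq_div, lt_div_iff₀ (abs_pos.2 hM)]
        exact h)
  rw [Submodule.mem_toAddSubgroup, Module.Basis.mem_span_iff_repr_mem] at hx
  choose z hz using hx
  have e : (fun k => (z k : ℝ)) = x := funext fun i => by simpa [hb] using hz i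
  refine ⟨z, fun h0 => hx0 (Subtype.ext ?_), ?_⟩
  · show x = 0
    rw [← e, h0]
    funext i
    simp
  · have hxS' : f x ∈ S := hxS
    rw [hS, Set.mem_preimage, mem_ball_zero_iff, ← e, hf] at hxS'
    have := pow_lt_pow_left₀ hxS' (norm_nonneg _) two_ne_zero
    rwa [EuclideanSpace.real_norm_sq_eq] at this

/-- The coordinates of an element, indexed. -/
def coord (q : Fin 4 × Fin 2 → ℤ) (i : Fin 4) : O := ⟨q (i, 0), q (i, 1)⟩

theorem exists_small_multiple {m : O} (hm : TotPos m) {A B : ℤ}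
    (hd : m ∣ ((A ^ 2 + B ^ 2 + 1 : ℤ) : O)) :
    ∃ t : O, IsSum4 (m * t) ∧ TotPos t ∧ 2 * t.re + t.im ≤ 6 := by
  obtain ⟨k, hk⟩ := hd
  set s : Fin 2 → ℝ := fun j => (Real.sqrt (emb j m))⁻¹ with hs
  have hs2 : ∀ j, s j ^ 2 * emb j m = 1 := fun j => by
    rw [hs, inv_pow, Real.sq_sqrt (hm j).le, inv_mul_cancel₀ (hm j).ne']
  let T : Fin 2 → Matrix (Fin 4) (Fin 4) ℝ := fun j => s j •
    !![1, 0, 0, 0; 0, 1, 0, 0; (A : ℝ), B, emb j m, 0; (B : ℝ), -A, 0, emb j m]
  let E : Matrix (Fin 2) (Fin 2) ℝ := !![1, Real.goldenRatio; 1, Real.goldenConj]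
  set M : Matrix (Fin 4 × Fin 2) (Fin 4 × Fin 2) ℝ :=
    blockDiagonal T * ((1 : Matrix (Fin 4) (Fin 4) ℝ) ⊗ₖ E) with hMdef
  have hT : ∀ j, (T j).det = 1 := fun j => by
    have : (T j).det = s j ^ 4 * emb j m ^ 2 := by
      simp [T, Matrix.det_succ_row_zero, Fin.sum_univ_succ, Fin.succAbove, pow_two]
      ring
    rw [this]
    linear_combination (s j ^ 2 * emb j m + 1) * hs2 j
  have hE : |E.det| = Real.sqrt 5 := by
    rw [Matrix.det_fin_two]
    simp only [E, Matrix.of_apply, Matrix.cons_val', Matrix.cons_val_zero, Matrix.cons_val_one,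
      Matrix.cons_val_fin_one, one_mul, mul_one]
    rw [abs_sub_comm, Real.goldenRatio_sub_goldenConj, abs_of_nonneg (Real.sqrt_nonneg _)]
  have hMd : |M.det| = 25 := by
    rw [hMdef, det_mul, det_blockDiagonal, det_kronecker, det_one]
    simp [hT, abs_pow, hE]
    rw [show (Real.sqrt 5) ^ 4 = ((Real.sqrt 5) ^ 2) ^ 2 by ring, Real.sq_sqrt (by norm_num)]
    norm_num
  obtain ⟨z, hz, hlt⟩ := exists_point_in_ball M (fun h => by simp [h] at hMd)
    (R := Real.sqrt 7) (by positivity) (by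
      rw [hMd, Fintype.card_prod, Fintype.card_fin, Fintype.card_fin]
      rw [show ((4 * 2 : ℕ) : ℝ) / 2 + 1 = ((4 : ℕ) : ℝ) + 1 by norm_num,
        Real.Gamma_nat_eq_factorial, show (4 * 2 : ℕ) = 2 * 4 by norm_num, pow_mul, pow_mul,
        pow_mul, Real.sq_sqrt (by norm_num), Real.sq_sqrt Real.pi_pos.le]
      have h81 : (81 : ℝ) ≤ Real.pi ^ 4 := by
        calc (81 : ℝ) = 3 ^ 4 := by norm_num
          _ ≤ Real.pi ^ 4 := pow_le_pow_left₀ (by norm_num) (le_of_lt Real.pi_gt_three) 4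
      norm_num [Nat.factorial]
      linarith)
  set q := coord z with hq
  set x : Fin 4 → O := ![q 0, q 1, (A : O) * q 0 + (B : O) * q 1 + m * q 2,
    (B : O) * q 0 - (A : O) * q 1 + m * q 3] with hx
  set t : O := k * (q 0 ^ 2 + q 1 ^ 2) + 2 * q 2 * ((A : O) * q 0 + (B : O) * q 1) +
    2 * q 3 * ((B : O) * q 0 - (A : O) * q 1) + m * q 2 ^ 2 + m * q 3 ^ 2 with ht
  have hsum : x 0 ^ 2 + x 1 ^ 2 + x 2 ^ 2 + x 3 ^ 2 = m * t := by
    simp only [hx, ht, Matrix.cons_val]
    push_cast at hk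
    linear_combination (q 0 ^ 2 + q 1 ^ 2) * hk
  have hMv : ∀ i j, (M *ᵥ fun l => (z l : ℝ)) (i, j) = s j * emb j (x i) := by
    have hw : ((1 : Matrix (Fin 4) (Fin 4) ℝ) ⊗ₖ E) *ᵥ (fun l => (z l : ℝ)) =
        fun l => emb l.2 (q l.1) := funext fun ⟨i, j⟩ => by
      fin_cases j <;>
        simp [Matrix.mulVec, dotProduct, Fintype.sum_prod_type, Fin.sum_univ_two,
          kroneckerMap_apply, E, hq, coord, emb_apply, root, Matrix.one_apply] <;>
        ring
    intro i j
    rw [hMdef, ← Matrix.mulVec_mulVec, hw]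
    fin_cases i <;>
      simp [Matrix.mulVec, dotProduct, Fintype.sum_prod_type, Fin.sum_univ_four,
        blockDiagonal_apply, T, hx] <;>
      ring
  have hj : ∀ j, ∑ i, (M *ᵥ fun l => (z l : ℝ)) (i, j) ^ 2 = emb j t := fun j => by
    simp only [Fin.sum_univ_four, hMv, mul_pow]
    rw [← mul_add, ← mul_add, ← mul_add, ← map_pow, ← map_pow, ← map_pow, ← map_pow, ← map_add,
      ← map_add, ← map_add, hsum, map_mul, ← mul_assoc, hs2, one_mul]
  have hne : ∃ i, x i ≠ 0 := by
    by_contra h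
    push Not at h
    refine hz (funext fun ⟨i, j⟩ => ?_)
    have h0 : q 0 = 0 := by simpa [hx] using h 0
    have h1 : q 1 = 0 := by simpa [hx] using h 1
    have hm0 : m ≠ 0 := fun e => by simpa [e] using (hm 0)
    have h2 : q 2 = 0 := by simpa [hx, h0, h1, hm0] using h 2
    have h3 : q 3 = 0 := by simpa [hx, h0, h1, hm0] using h 3
    have hqi : q i = 0 := by fin_cases i <;> assumption
    fin_cases j
    · exact congrArg QuadraticAlgebra.re hqi
    · exact congrArg QuadraticAlgebra.im hqi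
  have hpos : TotPos t := fun j => by
    obtain ⟨i, hi⟩ := hne
    rw [← hj]
    refine Finset.sum_pos' (fun _ _ => sq_nonneg _) ⟨i, Finset.mem_univ _, ?_⟩
    rw [hMv]
    exact sq_pos_of_ne_zero (mul_ne_zero (inv_ne_zero (Real.sqrt_pos.2 (hm j)).ne')
      ((map_ne_zero_iff _ (emb_injective j)).2 hi))
  refine ⟨t, ⟨_, _, _, _, hsum⟩, hpos, ?_⟩
  rw [Fintype.sum_prod_type, Finset.sum_comm, Fin.sum_univ_two, hj, hj, add_eq_trace,
    Real.sq_sqrt (by norm_num)] at hlt
  have : 2 * t.re + t.im < 7 := by exact_mod_cast hlt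
  omega

end FA.Gotzky
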