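import Fermat.Agent.Gotzky.Geometry
import Mathlib.FieldTheory.Finite.Basic

/-!
# The theorem of Götzky

The traces at most `6` leave `t = 1, 2, 3, 2 + φ, 3 - φ` up to squares of units; each can be
cancelled, and induction on the norm finishes the proof.
-/

set_option autoImplicit false

noncomputable section

namespace FA.Gotzky

open QuadraticAlgebra (norm)

/-- `φ` and `φ⁻¹` are units, so their squares can be cancelled. -/
theorem IsSum4.of_sq_mul {u v m : O} (huv : u * v = 1) (h : IsSum4 (u ^ 2 * m)) : IsSum4 m := by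
  have := IsSum4.mul ⟨v, 0, 0, 0, by ring⟩ h (m := v ^ 2)
  rwa [show v ^ 2 * (u ^ 2 * m) = (u * v) ^ 2 * m by ring, huv, one_pow, one_mul] at this

theorem exists_cancel {m t : O} (hs : IsSum4 (m * t)) (ht : TotPos t)
    (hT : 2 * t.re + t.im ≤ 6) : IsSum4 m ∨ (2 : O) ∣ m := by
  obtain ⟨hn, ht'⟩ := totPos_iff.1 ht
  rw [QuadraticAlgebra.norm_def] at hn
  have hb : -2 ≤ t.im ∧ t.im ≤ 2 := by constructor <;> nlinarith
  have ha : 0 ≤ t.re ∧ t.re ≤ 4 := by constructor <;> omega
  have h1 : (⟨0, 1⟩ : O) * ⟨-1, 1⟩ = 1 := by decide +kernel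
  have h2 : (⟨-1, 1⟩ : O) * ⟨0, 1⟩ = 1 := by decide +kernel
  rw [mul_comm] at hs
  obtain ⟨a, b⟩ := t
  simp only at hn ht' hT hb ha
  obtain ⟨hb1, hb2⟩ := hb
  obtain ⟨ha1, ha2⟩ := ha
  interval_cases b <;> interval_cases a <;> try omega
  · refine even_or_of_two_mul (IsSum4.of_sq_mul h2 ?_)
    rwa [← mul_assoc, show (⟨-1, 1⟩ : O) ^ 2 * 2 = ⟨4, -2⟩ by decide +kernel]
  · refine Or.inl (IsSum4.of_sq_mul h2 ?_)
    rwa [show (⟨-1, 1⟩ : O) ^ 2 = ⟨2, -1⟩ by decide +kernel]
  · exact Or.inl (of_tauStar_mul hs)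
  · exact Or.inl (by rwa [show (⟨1, 0⟩ : O) = 1 by decide +kernel, one_mul] at hs)
  · exact even_or_of_two_mul (by rwa [show (⟨2, 0⟩ : O) = 2 by decide +kernel] at hs)
  · exact Or.inl (of_three_mul (by rwa [show (⟨3, 0⟩ : O) = 3 by decide +kernel] at hs))
  · refine Or.inl (IsSum4.of_sq_mul h1 ?_)
    rwa [show (⟨0, 1⟩ : O) ^ 2 = ⟨1, 1⟩ by decide +kernel]
  · exact Or.inl (of_tau_mul hs)
  · refine even_or_of_two_mul (IsSum4.of_sq_mul h1 ?_)
    rwa [← mul_assoc, show (⟨0, 1⟩ : O) ^ 2 * 2 = ⟨2, 2⟩ by decide +kernel]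

theorem dvd_norm (m : O) : m ∣ ((norm m : ℤ) : O) :=
  ⟨star m, by rw [← QuadraticAlgebra.algebraMap_norm_eq_mul_star]; rfl⟩

theorem norm_two : norm (2 : O) = 4 := by decide +kernel

/-- A totally positive unit. -/
theorem isSum4_of_norm_one {m : O} (hm : TotPos m) (h : norm m = 1) : IsSum4 m := by
  obtain ⟨t, hs, ht, hT⟩ := exists_small_multiple hm (A := 0) (B := 0) (by
    simpa [h] using dvd_norm m)
  refine (exists_cancel hs ht hT).resolve_right fun ⟨w, hw⟩ => ?_
  rw [hw, map_mul, norm_two] at h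
  omega

/-- A totally positive divisor of a rational prime. -/
theorem isSum4_of_dvd_prime {m : O} (hm : TotPos m) {p : ℕ} (hp : p.Prime) (hd : m ∣ (p : O)) :
    IsSum4 m := by
  have := Fact.mk hp
  obtain ⟨a, b, c, -, -, hab⟩ := Int.exists_sq_add_sq_add_one_eq_mul p
  obtain ⟨t, hs, ht, hT⟩ := exists_small_multiple hm (A := a) (B := b) (by
    refine hd.trans ⟨(c : O), ?_⟩
    have := congrArg (Nat.cast : ℕ → O) hab
    push_cast at this ⊢
    linear_combination this)
  rcases exists_cancel hs ht hT with h | ⟨w, hw⟩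
  · exact h
  obtain ⟨v, hv⟩ := hd
  have hp2 : p = 2 := by
    have h2 : res 2 (p : O) = 0 := by
      rw [hv, hw, map_mul, map_mul, show res 2 2 = 0 by decide +kernel, zero_mul, zero_mul]
    have h2' := congrArg QuadraticAlgebra.re h2
    rw [map_natCast, QuadraticAlgebra.re_natCast, QuadraticAlgebra.re_zero] at h2'
    exact ((Nat.prime_dvd_prime_iff_eq Nat.prime_two hp).1
      ((ZMod.natCast_eq_zero_iff _ _).1 h2')).symm
  subst hp2
  rw [hw] at hv
  have hwv : w * v = 1 := mul_left_cancel₀ (two_ne_zero' O) (by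
    rw [mul_one, ← mul_assoc, ← hv]
    norm_num)
  have hwp : TotPos w := fun j => by
    have := hm j
    rw [hw, map_mul, map_ofNat] at this
    linarith
  have hw1 : norm w = 1 :=
    (Int.eq_one_or_neg_one_of_mul_eq_one (by rw [← map_mul, hwv, map_one])).resolve_right
      fun e => by have := (totPos_iff.1 hwp).1; omega
  rw [hw]
  exact IsSum4.mul ⟨1, 1, 0, 0, by ring⟩ (isSum4_of_norm_one hwp hw1)

/-- Some associate is totally positive. -/
theorem exists_totPos_mul {d : O} (hd : d ≠ 0) :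
    ∃ u v : O, u * v = 1 ∧ TotPos (u * d) := by
  have key : ∀ e : O, 0 < norm e → ∃ u v : O, u * v = 1 ∧ TotPos (u * e) := fun e he => by
    rcases lt_trichotomy 0 (2 * e.re + e.im) with h | h | h
    · exact ⟨1, 1, one_mul 1, by rw [one_mul]; exact totPos_iff.2 ⟨he, h⟩⟩
    · rw [QuadraticAlgebra.norm_def, show e.im = -2 * e.re by omega] at he
      nlinarith [mul_self_nonneg e.re]
    · refine ⟨-1, -1, by ring, totPos_iff.2 ⟨?_, ?_⟩⟩
      · rwa [map_mul, QuadraticAlgebra.norm_neg, map_one, one_mul]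
      · rw [neg_one_mul, QuadraticAlgebra.re_neg, QuadraticAlgebra.im_neg]
        linarith
  rcases lt_trichotomy 0 (norm d) with h | h | h
  · exact key d h
  · exact absurd (norm_eq_zero.1 h.symm) hd
  · obtain ⟨u, v, huv, ht⟩ := key (⟨0, 1⟩ * d) (by
      rw [map_mul, show norm (⟨0, 1⟩ : O) = -1 by decide +kernel]
      linarith)
    refine ⟨u * ⟨0, 1⟩, ⟨-1, 1⟩ * v, ?_, by rwa [mul_assoc]⟩
    rw [show u * ⟨0, 1⟩ * (⟨-1, 1⟩ * v) = (u * v) * (⟨0, 1⟩ * ⟨-1, 1⟩ : O) by ring, huv,
      one_mul]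
    decide +kernel

/-- An element of norm above one has such a divisor in common with a rational prime. -/
theorem exists_factor {m : O} (h : 1 < norm m) :
    ∃ (d : O) (p : ℕ), p.Prime ∧ TotPos d ∧ 1 < norm d ∧ d ∣ m ∧ d ∣ (p : O) := by
  classical
  set p := (norm m).natAbs.minFac
  have hp : p.Prime := Nat.minFac_prime (by omega)
  have hpn : (p : ℤ) ∣ norm m := Int.natCast_dvd.2 (Nat.minFac_dvd _)
  have hm0 : m ≠ 0 := fun e => by rw [e, QuadraticAlgebra.norm_zero] at h; omega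
  have hex : ∃ n : ℕ, ∃ x y : O,
      x * m + y * (p : O) ≠ 0 ∧ (norm (x * m + y * (p : O))).natAbs = n :=
    ⟨_, 1, 0, by simpa using hm0, rfl⟩
  obtain ⟨x, y, hd0, hd⟩ := Nat.find_spec hex
  set d := x * m + y * (p : O)
  have hmin : ∀ x' y' : O, x' * m + y' * (p : O) ≠ 0 → |norm d| ≤ |norm (x' * m + y' * (p : O))| :=
    fun x' y' hne => by
      rw [Int.abs_eq_natAbs, Int.abs_eq_natAbs, hd]
      exact_mod_cast Nat.find_min' hex ⟨x', y', hne, rfl⟩
  have hdiv : ∀ x' y' : O, d ∣ x' * m + y' * (p : O) := fun x' y' => by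
    obtain ⟨q, hq⟩ := exists_rem (x' * m + y' * (p : O)) hd0
    have e : x' * m + y' * (p : O) - q * d = (x' - q * x) * m + (y' - q * y) * (p : O) := by ring
    by_contra hne
    have h0 : (x' - q * x) * m + (y' - q * y) * (p : O) ≠ 0 :=
      fun h0 => hne ⟨q, by linear_combination h0⟩
    exact absurd (hmin _ _ h0) (not_le.2 (e ▸ hq))
  obtain ⟨u, v, huv, hpos⟩ := exists_totPos_mul hd0
  have hdu : ∀ z, d ∣ z → u * d ∣ z := fun z ⟨c, hc⟩ =>
    ⟨v * c, by rw [hc, show u * d * (v * c) = (u * v) * (d * c) by ring, huv, one_mul]⟩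
  have hn : 0 < norm (u * d) := (totPos_iff.1 hpos).1
  refine ⟨u * d, p, hp, hpos, ?_, hdu _ (by simpa using hdiv 1 0), hdu _ (by simpa using hdiv 0 1)⟩
  by_contra hle
  have h1 : norm (u * d) = 1 := by omega
  have hmod : (p : ℤ) ∣ norm (u * d) := by
    set X := u * x
    set Y := u * y
    rw [show u * d = X * m + Y * (p : O) by simp only [d, X, Y]; ring, QuadraticAlgebra.norm_def]
    obtain ⟨c, hc⟩ := hpn
    rw [QuadraticAlgebra.norm_def] at hc
    simp only [QuadraticAlgebra.re_add, QuadraticAlgebra.im_add, QuadraticAlgebra.re_mul,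
      QuadraticAlgebra.im_mul, QuadraticAlgebra.re_natCast, QuadraticAlgebra.im_natCast]
    refine ⟨(X.re * X.re + X.re * X.im - X.im * X.im) * c +
      (2 * (X.re * m.re + X.im * m.im) * Y.re +
        (X.re * m.re + X.im * m.im) * Y.im +
        (X.re * m.im + X.im * m.re + X.im * m.im) * Y.re -
        2 * (X.re * m.im + X.im * m.re + X.im * m.im) * Y.im) +
      (Y.re * Y.re + Y.re * Y.im - Y.im * Y.im) * p, ?_⟩
    linear_combination (X.re * X.re + X.re * X.im - X.im * X.im) * hc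
  rw [h1] at hmod
  have := Int.le_of_dvd one_pos hmod
  have := hp.two_le
  omega

/-- **Götzky.** -/
theorem isSum4_of_totPos : ∀ m : O, TotPos m → IsSum4 m := by
  suffices ∀ n : ℕ, ∀ m : O, (norm m).natAbs = n → TotPos m → IsSum4 m from
    fun m => this _ m rfl
  intro n
  induction n using Nat.strong_induction_on with
  | _ n ih =>
    intro m hn hm
    have hpos := (totPos_iff.1 hm).1
    rcases (show norm m = 1 ∨ 1 < norm m by omega) with h | h
    · exact isSum4_of_norm_one hm h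
    obtain ⟨d, p, hp, hdpos, hd1, ⟨e, he⟩, hdp⟩ := exists_factor h
    have hepos : TotPos e := fun j => by
      have := hm j
      rw [he, map_mul] at this
      exact pos_of_mul_pos_right this (hdpos j).le
    have h2 : norm m = norm d * norm e := by rw [he, map_mul]
    have he1 := (totPos_iff.1 hepos).1
    rw [he]
    refine IsSum4.mul (isSum4_of_dvd_prime hdpos hp hdp) (ih _ ?_ e rfl hepos)
    have : norm e < norm m := by nlinarith
    omega

end FA.Gotzky
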